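import Mathlib
import Fermat.Agent.LT.H556.A0

/-!
# Row LT, tower T8 (leaf MS-EVEN), sub-leaf MS2 (helper864): local elements of `GL₂(𝔸_K)`

OFF-MAIN.  On `Fermat/Agent/LT/H556/A0.lean` (helper556) verbatim.

* `evInf w`, `evFin v`: the evaluation ring homomorphisms of the adele ring at a place;
  `matA_ext`: a matrix over the adeles is determined by its components.
* `locFin v : GL₂(K_v) →* GL₂(𝔸_K)`, `locInf w : GL₂(K_w) →* GL₂(𝔸_K)`: the element with the given
  component at ONE place and the identity at all other places; components (`finComp`, `infComp`),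
  `IsLocalAtFin`, `IsLocalAtInf`, `TrivAtFin`, `TrivAtInf`, `IsIntegralAt`.
* elements at different places commute.
-/

set_option autoImplicit false
set_option linter.unusedSectionVars false

open IsDedekindDomain NumberField
open scoped MatrixGroups Classical

noncomputable section

namespace Fermat.Agent.LT.T8.H864

open Fermat.Agent.LT.H556.A0

variable {K : Type} [Field K] [NumberField K]

/-! ## Evaluation at a place -/

/-- Evaluation of an adele at the infinite place `w`. -/
def evInf (w : InfinitePlace K) : Adl K →+* w.Completion where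
  toFun x := x.1 w
  map_one' := rfl
  map_mul' _ _ := rfl
  map_zero' := rfl
  map_add' _ _ := rfl

/-- Evaluation of an adele at the finite place `v`. -/
def evFin (v : HeightOneSpectrum (𝓞 K)) : Adl K →+* v.adicCompletion K where
  toFun x := x.2 v
  map_one' := rfl
  map_mul' _ _ := rfl
  map_zero' := rfl
  map_add' _ _ := rfl

@[simp] theorem evInf_apply (w : InfinitePlace K) (x : Adl K) : evInf w x = x.1 w := rfl

@[simp] theorem evFin_apply (v : HeightOneSpectrum (𝓞 K)) (x : Adl K) : evFin v x = x.2 v := rfl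

/-- An adele is determined by its components. -/
theorem adl_ext {x y : Adl K} (hinf : ∀ w : InfinitePlace K, evInf w x = evInf w y)
    (hfin : ∀ v : HeightOneSpectrum (𝓞 K), evFin v x = evFin v y) : x = y := by
  refine Prod.ext (funext hinf) ?_
  exact FiniteAdeleRing.ext K hfin

/-- A matrix over the adeles is determined by its components. -/
theorem matA_ext {A B : Matrix (Fin 2) (Fin 2) (Adl K)}
    (hinf : ∀ w : InfinitePlace K, A.map (evInf w) = B.map (evInf w))
    (hfin : ∀ v : HeightOneSpectrum (𝓞 K), A.map (evFin v) = B.map (evFin v)) : A = B := by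
  ext i j : 1
  refine adl_ext (fun w => ?_) (fun v => ?_)
  · simpa using congrFun (congrFun (hinf w) i) j
  · simpa using congrFun (congrFun (hfin v) i) j

theorem finComp_eq_map (v : HeightOneSpectrum (𝓞 K)) (g : G K) :
    finComp v g = (g : Matrix (Fin 2) (Fin 2) (Adl K)).map (evFin v) := rfl

theorem trivAtInf_iff (w : InfinitePlace K) (g : G K) :
    TrivAtInf w g ↔ (g : Matrix (Fin 2) (Fin 2) (Adl K)).map (evInf w) = 1 := by
  constructor
  · intro h
    exact Matrix.ext fun i j => h i j
  · intro h i j
    exact congrFun (congrFun h i) j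

theorem trivAtFin_iff (v : HeightOneSpectrum (𝓞 K)) (g : G K) :
    TrivAtFin v g ↔ (g : Matrix (Fin 2) (Fin 2) (Adl K)).map (evFin v) = 1 := Iff.rfl


/-! ## The element with a given component at one finite place -/

theorem one_apply_mem_integers (v : HeightOneSpectrum (𝓞 K)) (i j : Fin 2) :
    (1 : Matrix (Fin 2) (Fin 2) (v.adicCompletion K)) i j ∈ v.adicCompletionIntegers K := by
  by_cases h : i = j
  · rw [h, Matrix.one_apply_eq]; exact one_mem _
  · rw [Matrix.one_apply_ne h]; exact zero_mem _

/-- The finite adele with component `x` at `v` and the `(i, j)` entry of the identity matrix at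
all other finite places. -/
def finEntry (v : HeightOneSpectrum (𝓞 K)) (i j : Fin 2) (x : v.adicCompletion K) :
    FiniteAdeleRing (𝓞 K) K :=
  ⟨Function.update
      (fun v' : HeightOneSpectrum (𝓞 K) => (1 : Matrix (Fin 2) (Fin 2) (v'.adicCompletion K)) i j)
      v x, by
    rw [Filter.eventually_cofinite]
    refine (Set.finite_singleton v).subset fun v' hv' => ?_
    by_contra hne
    apply hv'
    have hne' : v' ≠ v := hne
    simp only [Function.update_of_ne hne']
    exact one_apply_mem_integers v' i j⟩

theorem finEntry_self (v : HeightOneSpectrum (𝓞 K)) (i j : Fin 2) (x : v.adicCompletion K) :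
    finEntry v i j x v = x := by
  exact Function.update_self v x
    (fun v' : HeightOneSpectrum (𝓞 K) => (1 : Matrix (Fin 2) (Fin 2) (v'.adicCompletion K)) i j)

theorem finEntry_of_ne {v v' : HeightOneSpectrum (𝓞 K)} (h : v' ≠ v) (i j : Fin 2)
    (x : v.adicCompletion K) :
    finEntry v i j x v' = (1 : Matrix (Fin 2) (Fin 2) (v'.adicCompletion K)) i j := by
  exact Function.update_of_ne h x
    (fun v' : HeightOneSpectrum (𝓞 K) => (1 : Matrix (Fin 2) (Fin 2) (v'.adicCompletion K)) i j)

/-- The matrix over the adeles with component `m` at the finite place `v` and the identity at all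
other places. -/
def locFinMat (v : HeightOneSpectrum (𝓞 K)) (m : Matrix (Fin 2) (Fin 2) (v.adicCompletion K)) :
    Matrix (Fin 2) (Fin 2) (Adl K) :=
  Matrix.of fun i j =>
    (((fun w : InfinitePlace K => (1 : Matrix (Fin 2) (Fin 2) w.Completion) i j), finEntry v i j (m i j)) :
      Adl K)

theorem locFinMat_map_evInf (v : HeightOneSpectrum (𝓞 K))
    (m : Matrix (Fin 2) (Fin 2) (v.adicCompletion K)) (w : InfinitePlace K) :
    (locFinMat v m).map (evInf w) = 1 := by
  refine Matrix.ext fun i j => ?_
  rfl

theorem locFinMat_map_evFin_self (v : HeightOneSpectrum (𝓞 K))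
    (m : Matrix (Fin 2) (Fin 2) (v.adicCompletion K)) :
    (locFinMat v m).map (evFin v) = m := by
  refine Matrix.ext fun i j => ?_
  exact finEntry_self v i j (m i j)

theorem locFinMat_map_evFin_of_ne {v v' : HeightOneSpectrum (𝓞 K)} (h : v' ≠ v)
    (m : Matrix (Fin 2) (Fin 2) (v.adicCompletion K)) :
    (locFinMat v m).map (evFin v') = 1 := by
  refine Matrix.ext fun i j => ?_
  exact finEntry_of_ne h i j (m i j)

theorem locFinMat_one (v : HeightOneSpectrum (𝓞 K)) : locFinMat v (1 : Matrix (Fin 2) (Fin 2) _) = 1 := by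
  refine matA_ext (fun w => ?_) (fun v' => ?_)
  · rw [locFinMat_map_evInf, Matrix.map_one _ (map_zero _) (map_one _)]
  · rw [Matrix.map_one _ (map_zero _) (map_one _)]
    by_cases h : v' = v
    · subst h; rw [locFinMat_map_evFin_self]
    · rw [locFinMat_map_evFin_of_ne h]

theorem locFinMat_mul (v : HeightOneSpectrum (𝓞 K))
    (m m' : Matrix (Fin 2) (Fin 2) (v.adicCompletion K)) :
    locFinMat v (m * m') = locFinMat v m * locFinMat v m' := by
  refine matA_ext (fun w => ?_) (fun v' => ?_)
  · rw [Matrix.map_mul, locFinMat_map_evInf, locFinMat_map_evInf, locFinMat_map_evInf, one_mul]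
  · rw [Matrix.map_mul]
    by_cases h : v' = v
    · subst h; rw [locFinMat_map_evFin_self, locFinMat_map_evFin_self, locFinMat_map_evFin_self]
    · rw [locFinMat_map_evFin_of_ne h, locFinMat_map_evFin_of_ne h, locFinMat_map_evFin_of_ne h,
        one_mul]

/-- `locFinMat v` as a monoid homomorphism. -/
def locFinMatHom (v : HeightOneSpectrum (𝓞 K)) :
    Matrix (Fin 2) (Fin 2) (v.adicCompletion K) →* Matrix (Fin 2) (Fin 2) (Adl K) where
  toFun := locFinMat v
  map_one' := locFinMat_one v
  map_mul' := locFinMat_mul v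

/-- **The local element at a finite place**: the element of `GL₂(𝔸_K)` with component `m` at `v`
and the identity at all other places. -/
def locFin (v : HeightOneSpectrum (𝓞 K)) : GL (Fin 2) (v.adicCompletion K) →* G K :=
  Units.map (locFinMatHom v)

theorem coe_locFin (v : HeightOneSpectrum (𝓞 K)) (m : GL (Fin 2) (v.adicCompletion K)) :
    ((locFin v m : G K) : Matrix (Fin 2) (Fin 2) (Adl K)) =
      locFinMat v (m : Matrix (Fin 2) (Fin 2) (v.adicCompletion K)) := rfl

theorem finComp_locFin_self (v : HeightOneSpectrum (𝓞 K)) (m : GL (Fin 2) (v.adicCompletion K)) :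
    finComp v (locFin v m) = (m : Matrix (Fin 2) (Fin 2) (v.adicCompletion K)) := by
  rw [finComp_eq_map, coe_locFin, locFinMat_map_evFin_self]

theorem finComp_locFin_of_ne {v v' : HeightOneSpectrum (𝓞 K)} (h : v' ≠ v)
    (m : GL (Fin 2) (v.adicCompletion K)) : finComp v' (locFin v m) = 1 := by
  rw [finComp_eq_map, coe_locFin, locFinMat_map_evFin_of_ne h]

theorem trivAtInf_locFin (v : HeightOneSpectrum (𝓞 K)) (m : GL (Fin 2) (v.adicCompletion K))
    (w : InfinitePlace K) : TrivAtInf w (locFin v m) := by
  rw [trivAtInf_iff, coe_locFin, locFinMat_map_evInf]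

theorem trivAtFin_locFin_of_ne {v v' : HeightOneSpectrum (𝓞 K)} (h : v' ≠ v)
    (m : GL (Fin 2) (v.adicCompletion K)) : TrivAtFin v' (locFin v m) :=
  finComp_locFin_of_ne h m

/-- `locFin v m` is supported at `v`. -/
theorem isLocalAtFin_locFin (v : HeightOneSpectrum (𝓞 K)) (m : GL (Fin 2) (v.adicCompletion K)) :
    IsLocalAtFin v (locFin v m) :=
  ⟨fun w => trivAtInf_locFin v m w, fun _ h => trivAtFin_locFin_of_ne h m⟩

theorem isIntegralAt_locFin_iff (v : HeightOneSpectrum (𝓞 K))
    (m : GL (Fin 2) (v.adicCompletion K)) :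
    IsIntegralAt v (locFin v m) ↔
      ∀ i j, (m : Matrix (Fin 2) (Fin 2) (v.adicCompletion K)) i j ∈ v.adicCompletionIntegers K := by
  unfold IsIntegralAt
  rw [finComp_locFin_self]


/-! ## The element with a given component at one infinite place -/

/-- The infinite adele with component `x` at `w` and the `(i, j)` entry of the identity matrix at
all other infinite places. -/
def infEntry (w : InfinitePlace K) (i j : Fin 2) (x : w.Completion) : InfiniteAdeleRing K :=
  Function.update
    (fun w' : InfinitePlace K => (1 : Matrix (Fin 2) (Fin 2) w'.Completion) i j) w x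

theorem infEntry_self (w : InfinitePlace K) (i j : Fin 2) (x : w.Completion) :
    infEntry w i j x w = x :=
  Function.update_self w x
    (fun w' : InfinitePlace K => (1 : Matrix (Fin 2) (Fin 2) w'.Completion) i j)

theorem infEntry_of_ne {w w' : InfinitePlace K} (h : w' ≠ w) (i j : Fin 2) (x : w.Completion) :
    infEntry w i j x w' = (1 : Matrix (Fin 2) (Fin 2) w'.Completion) i j :=
  Function.update_of_ne h x
    (fun w' : InfinitePlace K => (1 : Matrix (Fin 2) (Fin 2) w'.Completion) i j)

/-- The finite adele whose components are the `(i, j)` entries of the identity matrices. -/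
def finOne (i j : Fin 2) : FiniteAdeleRing (𝓞 K) K :=
  ⟨fun v : HeightOneSpectrum (𝓞 K) => (1 : Matrix (Fin 2) (Fin 2) (v.adicCompletion K)) i j,
    Filter.Eventually.of_forall fun v => one_apply_mem_integers v i j⟩

/-- The matrix over the adeles with component `m` at the infinite place `w` and the identity at
all other places. -/
def locInfMat (w : InfinitePlace K) (m : Matrix (Fin 2) (Fin 2) w.Completion) :
    Matrix (Fin 2) (Fin 2) (Adl K) :=
  Matrix.of fun i j => ((infEntry w i j (m i j), finOne i j) : Adl K)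

theorem locInfMat_map_evFin (w : InfinitePlace K) (m : Matrix (Fin 2) (Fin 2) w.Completion)
    (v : HeightOneSpectrum (𝓞 K)) : (locInfMat w m).map (evFin v) = 1 := by
  refine Matrix.ext fun i j => ?_
  rfl

theorem locInfMat_map_evInf_self (w : InfinitePlace K) (m : Matrix (Fin 2) (Fin 2) w.Completion) :
    (locInfMat w m).map (evInf w) = m := by
  refine Matrix.ext fun i j => ?_
  exact infEntry_self w i j (m i j)

theorem locInfMat_map_evInf_of_ne {w w' : InfinitePlace K} (h : w' ≠ w)
    (m : Matrix (Fin 2) (Fin 2) w.Completion) : (locInfMat w m).map (evInf w') = 1 := by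
  refine Matrix.ext fun i j => ?_
  exact infEntry_of_ne h i j (m i j)

theorem locInfMat_one (w : InfinitePlace K) :
    locInfMat w (1 : Matrix (Fin 2) (Fin 2) w.Completion) = 1 := by
  refine matA_ext (fun w' => ?_) (fun v => ?_)
  · rw [Matrix.map_one _ (map_zero _) (map_one _)]
    by_cases h : w' = w
    · subst h; rw [locInfMat_map_evInf_self]
    · rw [locInfMat_map_evInf_of_ne h]
  · rw [locInfMat_map_evFin, Matrix.map_one _ (map_zero _) (map_one _)]

theorem locInfMat_mul (w : InfinitePlace K) (m m' : Matrix (Fin 2) (Fin 2) w.Completion) :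
    locInfMat w (m * m') = locInfMat w m * locInfMat w m' := by
  refine matA_ext (fun w' => ?_) (fun v => ?_)
  · rw [Matrix.map_mul]
    by_cases h : w' = w
    · subst h; rw [locInfMat_map_evInf_self, locInfMat_map_evInf_self, locInfMat_map_evInf_self]
    · rw [locInfMat_map_evInf_of_ne h, locInfMat_map_evInf_of_ne h, locInfMat_map_evInf_of_ne h,
        one_mul]
  · rw [Matrix.map_mul, locInfMat_map_evFin, locInfMat_map_evFin, locInfMat_map_evFin, one_mul]

/-- `locInfMat w` as a monoid homomorphism. -/
def locInfMatHom (w : InfinitePlace K) :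
    Matrix (Fin 2) (Fin 2) w.Completion →* Matrix (Fin 2) (Fin 2) (Adl K) where
  toFun := locInfMat w
  map_one' := locInfMat_one w
  map_mul' := locInfMat_mul w

/-- **The local element at an infinite place**: the element of `GL₂(𝔸_K)` with component `m` at
`w` and the identity at all other places. -/
def locInf (w : InfinitePlace K) : GL (Fin 2) w.Completion →* G K :=
  Units.map (locInfMatHom w)

theorem coe_locInf (w : InfinitePlace K) (m : GL (Fin 2) w.Completion) :
    ((locInf w m : G K) : Matrix (Fin 2) (Fin 2) (Adl K)) =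
      locInfMat w (m : Matrix (Fin 2) (Fin 2) w.Completion) := rfl

theorem infComp_eq_map (w : InfinitePlace K) (g : G K) :
    infComp w g = ((g : Matrix (Fin 2) (Fin 2) (Adl K)).map (evInf w)).map
      (InfinitePlace.Completion.extensionEmbedding w) := rfl

theorem infComp_locInf_self (w : InfinitePlace K) (m : GL (Fin 2) w.Completion) :
    infComp w (locInf w m) = (m : Matrix (Fin 2) (Fin 2) w.Completion).map
      (InfinitePlace.Completion.extensionEmbedding w) := by
  rw [infComp_eq_map, coe_locInf, locInfMat_map_evInf_self]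

theorem trivAtFin_locInf (w : InfinitePlace K) (m : GL (Fin 2) w.Completion)
    (v : HeightOneSpectrum (𝓞 K)) : TrivAtFin v (locInf w m) := by
  rw [trivAtFin_iff, coe_locInf, locInfMat_map_evFin]

theorem trivAtInf_locInf_of_ne {w w' : InfinitePlace K} (h : w' ≠ w)
    (m : GL (Fin 2) w.Completion) : TrivAtInf w' (locInf w m) := by
  rw [trivAtInf_iff, coe_locInf, locInfMat_map_evInf_of_ne h]

/-- `locInf w m` is supported at `w`. -/
theorem isLocalAtInf_locInf (w : InfinitePlace K) (m : GL (Fin 2) w.Completion) :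
    IsLocalAtInf w (locInf w m) :=
  ⟨fun _ h => trivAtInf_locInf_of_ne h m, fun v => trivAtFin_locInf w m v⟩


/-! ## Components as group homomorphisms -/

/-- The component at the finite place `v`, as a group homomorphism. -/
def finCompHom (v : HeightOneSpectrum (𝓞 K)) : G K →* GL (Fin 2) (v.adicCompletion K) :=
  Matrix.GeneralLinearGroup.map (evFin v)

/-- The component at the infinite place `w` (with values in the completion), as a group
homomorphism. -/
def infCompHom (w : InfinitePlace K) : G K →* GL (Fin 2) w.Completion :=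
  Matrix.GeneralLinearGroup.map (evInf w)

theorem coe_finCompHom (v : HeightOneSpectrum (𝓞 K)) (g : G K) :
    ((finCompHom v g : GL (Fin 2) (v.adicCompletion K)) :
      Matrix (Fin 2) (Fin 2) (v.adicCompletion K)) = finComp v g := rfl

theorem coe_infCompHom (w : InfinitePlace K) (g : G K) :
    ((infCompHom w g : GL (Fin 2) w.Completion) : Matrix (Fin 2) (Fin 2) w.Completion) =
      (g : Matrix (Fin 2) (Fin 2) (Adl K)).map (evInf w) := rfl

theorem infComp_eq_infCompHom (w : InfinitePlace K) (g : G K) :
    infComp w g = ((infCompHom w g : GL (Fin 2) w.Completion) :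
      Matrix (Fin 2) (Fin 2) w.Completion).map (InfinitePlace.Completion.extensionEmbedding w) :=
  rfl

theorem finComp_mul (v : HeightOneSpectrum (𝓞 K)) (g g' : G K) :
    finComp v (g * g') = finComp v g * finComp v g' := by
  rw [← coe_finCompHom, map_mul]; rfl

theorem finComp_one (v : HeightOneSpectrum (𝓞 K)) : finComp v (1 : G K) = 1 := by
  rw [← coe_finCompHom, map_one]; rfl

theorem infComp_mul (w : InfinitePlace K) (g g' : G K) :
    infComp w (g * g') = infComp w g * infComp w g' := by
  rw [infComp_eq_infCompHom, map_mul, Matrix.GeneralLinearGroup.coe_mul, Matrix.map_mul]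
  rfl

theorem infComp_one (w : InfinitePlace K) : infComp w (1 : G K) = 1 := by
  rw [infComp_eq_infCompHom, map_one, Matrix.GeneralLinearGroup.coe_one,
    Matrix.map_one _ (map_zero _) (map_one _)]

theorem trivAtFin_iff_hom (v : HeightOneSpectrum (𝓞 K)) (g : G K) :
    TrivAtFin v g ↔ finCompHom v g = 1 := by
  rw [Units.ext_iff, coe_finCompHom]; rfl

theorem trivAtInf_iff_hom (w : InfinitePlace K) (g : G K) :
    TrivAtInf w g ↔ infCompHom w g = 1 := by
  rw [trivAtInf_iff, Units.ext_iff, coe_infCompHom]; rfl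

/-- An element of `GL₂(𝔸_K)` is determined by its components. -/
theorem G_ext {g g' : G K} (hinf : ∀ w : InfinitePlace K, infCompHom w g = infCompHom w g')
    (hfin : ∀ v : HeightOneSpectrum (𝓞 K), finCompHom v g = finCompHom v g') : g = g' := by
  refine Units.ext (matA_ext (fun w => ?_) (fun v => ?_))
  · have := congrArg (fun x : GL (Fin 2) w.Completion =>
      (x : Matrix (Fin 2) (Fin 2) w.Completion)) (hinf w)
    exact this
  · have := congrArg (fun x : GL (Fin 2) (v.adicCompletion K) =>
      (x : Matrix (Fin 2) (Fin 2) (v.adicCompletion K))) (hfin v)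
    exact this

@[simp] theorem finCompHom_locFin_self (v : HeightOneSpectrum (𝓞 K))
    (m : GL (Fin 2) (v.adicCompletion K)) : finCompHom v (locFin v m) = m :=
  Units.ext (finComp_locFin_self v m)

theorem finCompHom_locFin_of_ne {v v' : HeightOneSpectrum (𝓞 K)} (h : v' ≠ v)
    (m : GL (Fin 2) (v.adicCompletion K)) : finCompHom v' (locFin v m) = 1 :=
  Units.ext (finComp_locFin_of_ne h m)

@[simp] theorem infCompHom_locFin (v : HeightOneSpectrum (𝓞 K))
    (m : GL (Fin 2) (v.adicCompletion K)) (w : InfinitePlace K) :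
    infCompHom w (locFin v m) = 1 :=
  (trivAtInf_iff_hom w _).1 (trivAtInf_locFin v m w)

@[simp] theorem infCompHom_locInf_self (w : InfinitePlace K) (m : GL (Fin 2) w.Completion) :
    infCompHom w (locInf w m) = m :=
  Units.ext (by rw [coe_infCompHom, coe_locInf, locInfMat_map_evInf_self])

theorem infCompHom_locInf_of_ne {w w' : InfinitePlace K} (h : w' ≠ w)
    (m : GL (Fin 2) w.Completion) : infCompHom w' (locInf w m) = 1 :=
  (trivAtInf_iff_hom w' _).1 (trivAtInf_locInf_of_ne h m)

@[simp] theorem finCompHom_locInf (w : InfinitePlace K) (m : GL (Fin 2) w.Completion)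
    (v : HeightOneSpectrum (𝓞 K)) : finCompHom v (locInf w m) = 1 :=
  (trivAtFin_iff_hom v _).1 (trivAtFin_locInf w m v)

/-- Two elements such that at every place one of them is trivial commute. -/
theorem commute_of_triv {g g' : G K}
    (hinf : ∀ w : InfinitePlace K, infCompHom w g = 1 ∨ infCompHom w g' = 1)
    (hfin : ∀ v : HeightOneSpectrum (𝓞 K), finCompHom v g = 1 ∨ finCompHom v g' = 1) :
    g * g' = g' * g := by
  refine G_ext (fun w => ?_) (fun v => ?_)
  · rw [map_mul, map_mul]
    rcases hinf w with h | h <;> rw [h] <;> simp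
  · rw [map_mul, map_mul]
    rcases hfin v with h | h <;> rw [h] <;> simp

/-- An element at a finite place commutes with an element at an infinite place. -/
theorem locFin_mul_locInf (v : HeightOneSpectrum (𝓞 K)) (m : GL (Fin 2) (v.adicCompletion K))
    (w : InfinitePlace K) (m' : GL (Fin 2) w.Completion) :
    locFin v m * locInf w m' = locInf w m' * locFin v m :=
  commute_of_triv (fun _ => Or.inl (infCompHom_locFin v m _))
    (fun _ => Or.inr (finCompHom_locInf w m' _))

/-- Elements at two different finite places commute. -/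
theorem locFin_mul_locFin_of_ne {v v' : HeightOneSpectrum (𝓞 K)} (h : v' ≠ v)
    (m : GL (Fin 2) (v.adicCompletion K)) (m' : GL (Fin 2) (v'.adicCompletion K)) :
    locFin v m * locFin v' m' = locFin v' m' * locFin v m := by
  refine commute_of_triv (fun _ => Or.inl (infCompHom_locFin v m _)) (fun v'' => ?_)
  by_cases h' : v'' = v
  · subst h'
    exact Or.inr (finCompHom_locFin_of_ne (Ne.symm h) m')
  · exact Or.inl (finCompHom_locFin_of_ne h' m)

/-- An element trivial at `v` commutes with every element at `v`. -/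
theorem mul_locFin_comm_of_trivAtFin {v : HeightOneSpectrum (𝓞 K)} {g : G K}
    (hg : TrivAtFin v g) (m : GL (Fin 2) (v.adicCompletion K)) :
    g * locFin v m = locFin v m * g := by
  refine commute_of_triv (fun _ => Or.inr (infCompHom_locFin v m _)) (fun v' => ?_)
  by_cases h' : v' = v
  · subst h'
    exact Or.inl ((trivAtFin_iff_hom _ g).1 hg)
  · exact Or.inr (finCompHom_locFin_of_ne h' m)

/-- An element trivial at `w` commutes with every element at `w`. -/
theorem mul_locInf_comm_of_trivAtInf {w : InfinitePlace K} {g : G K}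
    (hg : TrivAtInf w g) (m : GL (Fin 2) w.Completion) :
    g * locInf w m = locInf w m * g := by
  refine commute_of_triv (fun w' => ?_) (fun _ => Or.inr (finCompHom_locInf w m _))
  by_cases h' : w' = w
  · subst h'
    exact Or.inl ((trivAtInf_iff_hom _ g).1 hg)
  · exact Or.inr (infCompHom_locInf_of_ne h' m)

/-! ## The diagonal embedding of `GL₂(K)` -/

/-- The diagonal embedding `GL₂(K) → GL₂(𝔸_K)` (the one of `A0.IsSph0CuspFormFor.left_inv`). -/
def diagG : GL (Fin 2) K →* G K :=
  Matrix.GeneralLinearGroup.map (algebraMap K (Adl K))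

theorem diagG_apply (γ : GL (Fin 2) K) :
    diagG γ = Matrix.GeneralLinearGroup.map (algebraMap K (Adl K)) γ := rfl

theorem finCompHom_diagG (v : HeightOneSpectrum (𝓞 K)) (γ : GL (Fin 2) K) :
    finCompHom v (diagG γ) =
      Matrix.GeneralLinearGroup.map (algebraMap K (v.adicCompletion K)) γ := by
  refine Units.ext (Matrix.ext fun i j => ?_)
  rfl

theorem infCompHom_diagG (w : InfinitePlace K) (γ : GL (Fin 2) K) :
    infCompHom w (diagG γ) = Matrix.GeneralLinearGroup.map (algebraMap K w.Completion) γ := by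
  refine Units.ext (Matrix.ext fun i j => ?_)
  rfl


/-! ## Local elements from matrices over `K` and, at a real place, over `ℝ` -/

/-- The local element at the finite place `v` given by a matrix with entries in `K`. -/
def locFinK (v : HeightOneSpectrum (𝓞 K)) : GL (Fin 2) K →* G K :=
  (locFin v).comp (Matrix.GeneralLinearGroup.map (algebraMap K (v.adicCompletion K)))

theorem locFinK_apply (v : HeightOneSpectrum (𝓞 K)) (γ : GL (Fin 2) K) :
    locFinK v γ = locFin v (Matrix.GeneralLinearGroup.map (algebraMap K (v.adicCompletion K)) γ) :=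
  rfl

theorem isLocalAtFin_locFinK (v : HeightOneSpectrum (𝓞 K)) (γ : GL (Fin 2) K) :
    IsLocalAtFin v (locFinK v γ) := isLocalAtFin_locFin v _

theorem finComp_locFinK_self (v : HeightOneSpectrum (𝓞 K)) (γ : GL (Fin 2) K) :
    finComp v (locFinK v γ) =
      (γ : Matrix (Fin 2) (Fin 2) K).map (algebraMap K (v.adicCompletion K)) := by
  rw [locFinK_apply, finComp_locFin_self]; rfl

/-- At `v` the local element of a rational matrix has the component of its diagonal image. -/
theorem finCompHom_locFinK_self (v : HeightOneSpectrum (𝓞 K)) (γ : GL (Fin 2) K) :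
    finCompHom v (locFinK v γ) = finCompHom v (diagG γ) := by
  rw [locFinK_apply, finCompHom_locFin_self, finCompHom_diagG]

/-- The real numbers inside the completion at a real place. -/
def realHom {w : InfinitePlace K} (hw : w.IsReal) : ℝ →+* w.Completion :=
  (InfinitePlace.Completion.ringEquivRealOfIsReal hw).symm.toRingHom

theorem extensionEmbedding_realHom {w : InfinitePlace K} (hw : w.IsReal) (r : ℝ) :
    InfinitePlace.Completion.extensionEmbedding w (realHom hw r) = (r : ℂ) := by
  rw [← InfinitePlace.Completion.extensionEmbeddingOfIsReal_apply hw,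
    ← InfinitePlace.Completion.ringEquivRealOfIsReal_apply]
  congr 1
  exact (InfinitePlace.Completion.ringEquivRealOfIsReal hw).apply_symm_apply r

theorem continuous_realHom {w : InfinitePlace K} (hw : w.IsReal) : Continuous (realHom hw) :=
  (InfinitePlace.Completion.isometryEquivRealOfIsReal hw).symm.continuous

/-- The local element at the real place `w` given by a real matrix. -/
def locInfReal {w : InfinitePlace K} (hw : w.IsReal) : GL (Fin 2) ℝ →* G K :=
  (locInf w).comp (Matrix.GeneralLinearGroup.map (realHom hw))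

theorem locInfReal_apply {w : InfinitePlace K} (hw : w.IsReal) (m : GL (Fin 2) ℝ) :
    locInfReal hw m = locInf w (Matrix.GeneralLinearGroup.map (realHom hw) m) := rfl

theorem isLocalAtInf_locInfReal {w : InfinitePlace K} (hw : w.IsReal) (m : GL (Fin 2) ℝ) :
    IsLocalAtInf w (locInfReal hw m) := isLocalAtInf_locInf w _

/-- The complex matrix of `locInfReal hw m` at `w` is `m`. -/
theorem infComp_locInfReal {w : InfinitePlace K} (hw : w.IsReal) (m : GL (Fin 2) ℝ) :
    infComp w (locInfReal hw m) =
      (m : Matrix (Fin 2) (Fin 2) ℝ).map (fun r : ℝ => (r : ℂ)) := by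
  rw [locInfReal_apply, infComp_locInf_self]
  refine Matrix.ext fun i j => ?_
  exact extensionEmbedding_realHom hw _

/-! ## Continuity -/

theorem continuous_locInfMat (w : InfinitePlace K) : Continuous (locInfMat (K := K) w) := by
  refine continuous_matrix fun i j => ?_
  have h1 : Continuous fun m : Matrix (Fin 2) (Fin 2) w.Completion => infEntry w i j (m i j) :=
    Continuous.update continuous_const w (continuous_id.matrix_elem i j)
  have h2 : Continuous fun _ : Matrix (Fin 2) (Fin 2) w.Completion => finOne (K := K) i j :=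
    continuous_const
  exact Continuous.prodMk h1 h2

/-- `locInf w` is continuous. -/
theorem continuous_locInf (w : InfinitePlace K) : Continuous (locInf (K := K) w) :=
  Continuous.units_map (locInfMatHom w) (continuous_locInfMat w)

/-- `locInfReal hw` is continuous. -/
theorem continuous_locInfReal {w : InfinitePlace K} (hw : w.IsReal) :
    Continuous (locInfReal (K := K) hw) := by
  have h : Continuous (Matrix.GeneralLinearGroup.map (n := Fin 2) (realHom hw)) := by
    unfold Matrix.GeneralLinearGroup.map
    apply Continuous.units_map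
    exact Continuous.matrix_map continuous_id (continuous_realHom hw)
  exact (continuous_locInf w).comp h


/-! ## The upper triangular elements `b(x, y) = [[y, x], [0, 1]]` at a real place -/

/-- The real matrix `[[y, x], [0, 1]]`. -/
def bMat (x y : ℝ) : Matrix (Fin 2) (Fin 2) ℝ := !![y, x; 0, 1]

theorem det_bMat (x y : ℝ) : (bMat x y).det = y := by
  simp [bMat, Matrix.det_fin_two]

/-- `[[y, x], [0, 1]]` as an element of `GL₂(ℝ)` (the identity if `y = 0`). -/
def bGL (x y : ℝ) : GL (Fin 2) ℝ :=
  if h : y = 0 then 1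
  else Matrix.GeneralLinearGroup.mkOfDetNeZero (bMat x y) (by rw [det_bMat]; exact h)

theorem coe_bGL (x : ℝ) {y : ℝ} (hy : y ≠ 0) :
    ((bGL x y : GL (Fin 2) ℝ) : Matrix (Fin 2) (Fin 2) ℝ) = bMat x y := by
  simp [bGL, hy, Matrix.GeneralLinearGroup.mkOfDetNeZero]

theorem bGL_mul (x x' : ℝ) {y y' : ℝ} (hy : y ≠ 0) (hy' : y' ≠ 0) :
    bGL x y * bGL x' y' = bGL (y * x' + x) (y * y') := by
  refine Units.ext ?_
  rw [Matrix.GeneralLinearGroup.coe_mul, coe_bGL x hy, coe_bGL x' hy',
    coe_bGL _ (mul_ne_zero hy hy')]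
  ext i j
  fin_cases i <;> fin_cases j <;> simp [bMat, Matrix.mul_apply, Fin.sum_univ_two]

theorem bGL_zero_one : bGL 0 1 = 1 := by
  refine Units.ext ?_
  rw [coe_bGL 0 one_ne_zero]
  ext i j
  fin_cases i <;> fin_cases j <;> simp [bMat]

/-- `n(x) a(y) = b(x, y)`. -/
theorem bGL_eq_n_mul_a (x : ℝ) {y : ℝ} (hy : y ≠ 0) : bGL x y = bGL x 1 * bGL 0 y := by
  rw [bGL_mul x 0 one_ne_zero hy]
  simp

theorem coe_inv_bGL (x : ℝ) {y : ℝ} (hy : y ≠ 0) :
    (((bGL x y)⁻¹ : GL (Fin 2) ℝ) : Matrix (Fin 2) (Fin 2) ℝ) = bMat (-(x / y)) y⁻¹ := by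
  have h : (bGL x y)⁻¹ = bGL (-(x / y)) y⁻¹ := by
    rw [inv_eq_iff_mul_eq_one, bGL_mul x _ hy (inv_ne_zero hy)]
    have e1 : y * -(x / y) + x = 0 := by field_simp; ring
    rw [e1, mul_inv_cancel₀ hy, bGL_zero_one]
  rw [h, coe_bGL _ (inv_ne_zero hy)]

/-- `(x, y) ↦ b(x, y)` is continuous on `y ≠ 0`. -/
theorem continuousOn_bGL :
    ContinuousOn (fun p : ℝ × ℝ => bGL p.1 p.2) {p : ℝ × ℝ | p.2 ≠ 0} := by
  rw [continuousOn_iff_continuous_restrict, Units.continuous_iff]
  constructor
  · have h : (fun p : {p : ℝ × ℝ | p.2 ≠ 0} =>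
        ((bGL p.1.1 p.1.2 : GL (Fin 2) ℝ) : Matrix (Fin 2) (Fin 2) ℝ)) =
        fun p => bMat p.1.1 p.1.2 := by
      funext p
      exact coe_bGL _ p.2
    change Continuous fun p : {p : ℝ × ℝ | p.2 ≠ 0} =>
        ((bGL p.1.1 p.1.2 : GL (Fin 2) ℝ) : Matrix (Fin 2) (Fin 2) ℝ)
    rw [h]
    refine continuous_matrix fun i j => ?_
    fin_cases i <;> fin_cases j <;> simp [bMat] <;> fun_prop
  · have h : (fun p : {p : ℝ × ℝ | p.2 ≠ 0} =>
        (((bGL p.1.1 p.1.2)⁻¹ : GL (Fin 2) ℝ) : Matrix (Fin 2) (Fin 2) ℝ)) =
        fun p => bMat (-(p.1.1 / p.1.2)) (p.1.2)⁻¹ := by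
      funext p
      exact coe_inv_bGL _ p.2
    change Continuous fun p : {p : ℝ × ℝ | p.2 ≠ 0} =>
        (((bGL p.1.1 p.1.2)⁻¹ : GL (Fin 2) ℝ) : Matrix (Fin 2) (Fin 2) ℝ)
    rw [h]
    have hc1 : Continuous fun p : {p : ℝ × ℝ | p.2 ≠ 0} => p.1.1 := by fun_prop
    have hc2 : Continuous fun p : {p : ℝ × ℝ | p.2 ≠ 0} => p.1.2 := by fun_prop
    have hc3 : Continuous fun p : {p : ℝ × ℝ | p.2 ≠ 0} => (p.1.2)⁻¹ :=
      hc2.inv₀ fun p => p.2
    have hc4 : Continuous fun p : {p : ℝ × ℝ | p.2 ≠ 0} => -(p.1.1 / p.1.2) :=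
      (hc1.div hc2 fun p => p.2).neg
    refine continuous_matrix fun i j => ?_
    fin_cases i <;> fin_cases j <;> simp [bMat] <;> first | exact hc3 | exact hc4 | fun_prop

/-- The element `b(x, y)_∞ = n(x)_∞ a(y)_∞` of `GL₂(𝔸_K)` at the real place `w`. -/
def bInf {w : InfinitePlace K} (hw : w.IsReal) (x y : ℝ) : G K := locInfReal hw (bGL x y)

theorem isLocalAtInf_bInf {w : InfinitePlace K} (hw : w.IsReal) (x y : ℝ) :
    IsLocalAtInf w (bInf hw x y) := isLocalAtInf_locInfReal hw _

theorem infComp_bInf {w : InfinitePlace K} (hw : w.IsReal) (x : ℝ) {y : ℝ} (hy : y ≠ 0) :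
    infComp w (bInf hw x y) = !![(y : ℂ), (x : ℂ); 0, 1] := by
  rw [bInf, infComp_locInfReal, coe_bGL x hy]
  ext i j
  fin_cases i <;> fin_cases j <;> simp [bMat]

theorem bInf_mul {w : InfinitePlace K} (hw : w.IsReal) (x x' : ℝ) {y y' : ℝ} (hy : y ≠ 0)
    (hy' : y' ≠ 0) : bInf hw x y * bInf hw x' y' = bInf hw (y * x' + x) (y * y') := by
  rw [bInf, bInf, ← map_mul, bGL_mul x x' hy hy']; rfl

/-- `(x, y) ↦ b(x, y)_∞` is continuous on `y ≠ 0`. -/
theorem continuousOn_bInf {w : InfinitePlace K} (hw : w.IsReal) :
    ContinuousOn (fun p : ℝ × ℝ => bInf (K := K) hw p.1 p.2) {p : ℝ × ℝ | p.2 ≠ 0} :=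
  (continuous_locInfReal hw).comp_continuousOn continuousOn_bGL

/-- For a continuous `φ` on `GL₂(𝔸_K)`, `(x, y) ↦ φ(b(x, y)_∞ g)` is continuous on `y ≠ 0`. -/
theorem continuousOn_comp_bInf {w : InfinitePlace K} (hw : w.IsReal) {φ : G K → ℂ}
    (hφ : Continuous φ) (g : G K) :
    ContinuousOn (fun p : ℝ × ℝ => φ (bInf hw p.1 p.2 * g)) {p : ℝ × ℝ | p.2 ≠ 0} :=
  hφ.comp_continuousOn ((continuousOn_bInf hw).mul continuousOn_const)

end Fermat.Agent.LT.T8.H864

end
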