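import Mathlib
import Fermat.Agent.LT.H556.A0
import Fermat.Agent.LT.T8.H864.Local

/-!
# Row LT, tower T8 (leaf MS-EVEN), sub-leaf MS3 (helper864): the explicit Hecke coset system

OFF-MAIN.  On `Fermat/Agent/LT/H556/A0.lean` (helper556) verbatim.

For a finite place `v` of a number field `K`, a uniformizer `ϖ ∈ K` at `v` and a finite set
`R ⊂ K` of `v`-integral elements, pairwise incongruent modulo `v`, with `#R = N(v)`:

  `heckeSet v ϖ R = {[[ϖ, r], [0, 1]]_v : r ∈ R} ∪ {[[1, 0], [0, ϖ]]_v}`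

is an `A0.IsHeckeCosetSystem v` (`isHeckeCosetSystem_heckeSet`), and `[[ϖ, 0], [0, ϖ]]_v` is an
`A0.IsScalarUniformizerAt v` (`isScalarUniformizerAt_scAd`).
-/

set_option autoImplicit false
set_option linter.unusedSectionVars false

open IsDedekindDomain NumberField
open scoped MatrixGroups Classical

noncomputable section

namespace Fermat.Agent.LT.T8.H864

open Fermat.Agent.LT.H556.A0

variable {K : Type} [Field K] [NumberField K]

/-! ## The matrices over `K` -/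

/-- `[[a, b], [0, d]]` over `K`. -/
def triMat (a b d : K) : Matrix (Fin 2) (Fin 2) K := !![a, b; 0, d]

theorem det_triMat (a b d : K) : (triMat a b d).det = a * d := by
  simp [triMat, Matrix.det_fin_two]

/-- `[[a, b], [0, d]]` as an element of `GL₂(K)` (the identity if `a d = 0`). -/
def triGL (a b d : K) : GL (Fin 2) K :=
  if h : a * d = 0 then 1
  else Matrix.GeneralLinearGroup.mkOfDetNeZero (triMat a b d) (by rw [det_triMat]; exact h)

theorem coe_triGL {a d : K} (b : K) (h : a * d ≠ 0) :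
    ((triGL a b d : GL (Fin 2) K) : Matrix (Fin 2) (Fin 2) K) = triMat a b d := by
  simp [triGL, h, Matrix.GeneralLinearGroup.mkOfDetNeZero]

theorem triGL_mul {a d a' d' : K} (b b' : K) (h : a * d ≠ 0) (h' : a' * d' ≠ 0) :
    triGL a b d * triGL a' b' d' = triGL (a * a') (a * b' + b * d') (d * d') := by
  have h2 : a * a' * (d * d') ≠ 0 := by
    have : a * a' * (d * d') = a * d * (a' * d') := by ring
    rw [this]; exact mul_ne_zero h h'
  refine Units.ext ?_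
  rw [Matrix.GeneralLinearGroup.coe_mul, coe_triGL b h, coe_triGL b' h', coe_triGL _ h2]
  ext i j
  fin_cases i <;> fin_cases j <;> simp [triMat, Matrix.mul_apply, Fin.sum_univ_two]

theorem triGL_one : triGL (1 : K) 0 1 = 1 := by
  refine Units.ext ?_
  rw [coe_triGL 0 (by simp)]
  ext i j
  fin_cases i <;> fin_cases j <;> simp [triMat]

theorem triGL_inv {a d : K} (b : K) (h : a * d ≠ 0) :
    (triGL a b d)⁻¹ = triGL a⁻¹ (-(b / (a * d))) d⁻¹ := by
  have ha : a ≠ 0 := left_ne_zero_of_mul h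
  have hd : d ≠ 0 := right_ne_zero_of_mul h
  rw [inv_eq_iff_mul_eq_one, triGL_mul b _ h (mul_ne_zero (inv_ne_zero ha) (inv_ne_zero hd))]
  have e1 : a * a⁻¹ = 1 := mul_inv_cancel₀ ha
  have e2 : d * d⁻¹ = 1 := mul_inv_cancel₀ hd
  have e3 : a * -(b / (a * d)) + b * d⁻¹ = 0 := by field_simp; ring
  rw [e1, e2, e3, triGL_one]

/-- `(u r)⁻¹ u r' = [[1, (r' - r)/ϖ], [0, 1]]` for `u r = [[ϖ, r], [0, 1]]`. -/
theorem up_inv_mul_up {ϖ : K} (hϖ : ϖ ≠ 0) (r r' : K) :
    (triGL ϖ r 1)⁻¹ * triGL ϖ r' 1 = triGL 1 ((r' - r) / ϖ) 1 := by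
  have h : ϖ * 1 ≠ 0 := by simpa using hϖ
  rw [triGL_inv r h, triGL_mul _ r' (by simpa using hϖ) h]
  have e1 : ϖ⁻¹ * ϖ = 1 := inv_mul_cancel₀ hϖ
  have e2 : ϖ⁻¹ * r' + -(r / (ϖ * 1)) * 1 = (r' - r) / ϖ := by field_simp; ring
  rw [e1, e2]
  simp

/-- `(u r)⁻¹ l = [[1/ϖ, -r], [0, ϖ]]` for `u r = [[ϖ, r], [0, 1]]`, `l = [[1, 0], [0, ϖ]]`. -/
theorem up_inv_mul_lo {ϖ : K} (hϖ : ϖ ≠ 0) (r : K) :
    (triGL ϖ r 1)⁻¹ * triGL 1 0 ϖ = triGL ϖ⁻¹ (-r) ϖ := by
  have h : ϖ * 1 ≠ 0 := by simpa using hϖ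
  rw [triGL_inv r h, triGL_mul _ 0 (by simpa using hϖ) (by simpa using hϖ)]
  have e2 : ϖ⁻¹ * 0 + -(r / (ϖ * 1)) * ϖ = -r := by field_simp; ring
  rw [e2]
  simp

/-- `l⁻¹ (u r) = [[ϖ, r], [0, 1/ϖ]]`. -/
theorem lo_inv_mul_up {ϖ : K} (hϖ : ϖ ≠ 0) (r : K) :
    (triGL 1 0 ϖ)⁻¹ * triGL ϖ r 1 = triGL ϖ r ϖ⁻¹ := by
  have h : (1 : K) * ϖ ≠ 0 := by simpa using hϖ
  rw [triGL_inv 0 h, triGL_mul _ r (by simpa using hϖ) (by simpa using hϖ)]
  simp

/-! ## The adelic elements -/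

/-- `[[a, b], [0, d]]_v`: the element of `GL₂(𝔸_K)` with component `[[a, b], [0, d]]` at `v` and
the identity elsewhere. -/
def triAd (v : HeightOneSpectrum (𝓞 K)) (a b d : K) : G K := locFinK v (triGL a b d)

theorem isLocalAtFin_triAd (v : HeightOneSpectrum (𝓞 K)) (a b d : K) :
    IsLocalAtFin v (triAd v a b d) := isLocalAtFin_locFinK v _

theorem finComp_triAd (v : HeightOneSpectrum (𝓞 K)) {a d : K} (b : K) (h : a * d ≠ 0) :
    finComp v (triAd v a b d) =
      !![algebraMap K (v.adicCompletion K) a, algebraMap K (v.adicCompletion K) b;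
         0, algebraMap K (v.adicCompletion K) d] := by
  rw [triAd, finComp_locFinK_self, coe_triGL b h]
  ext i j
  fin_cases i <;> fin_cases j <;> simp [triMat]

theorem valued_algebraMap (v : HeightOneSpectrum (𝓞 K)) (k : K) :
    Valued.v (algebraMap K (v.adicCompletion K) k) = v.valuation K k :=
  HeightOneSpectrum.valuedAdicCompletion_eq_valuation' v k

theorem isIntegralAt_triAd (v : HeightOneSpectrum (𝓞 K)) {a b d : K} (h : a * d ≠ 0)
    (ha : v.valuation K a ≤ 1) (hb : v.valuation K b ≤ 1) (hd : v.valuation K d ≤ 1) :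
    IsIntegralAt v (triAd v a b d) := by
  intro i j
  rw [finComp_triAd v b h, HeightOneSpectrum.mem_adicCompletionIntegers]
  fin_cases i <;> fin_cases j <;> simp [valued_algebraMap, ha, hb, hd]

theorem not_isIntegralAt_triAd_of_left (v : HeightOneSpectrum (𝓞 K)) {a d : K} (b : K)
    (h : a * d ≠ 0) (ha : 1 < v.valuation K a) : ¬ IsIntegralAt v (triAd v a b d) := by
  intro hint
  have := hint 0 0
  rw [finComp_triAd v b h, HeightOneSpectrum.mem_adicCompletionIntegers] at this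
  simp only [Matrix.of_apply, Matrix.cons_val', Matrix.cons_val_zero, Matrix.cons_val_fin_one,
    valued_algebraMap] at this
  exact absurd this (not_le.2 ha)

theorem not_isIntegralAt_triAd_of_mid (v : HeightOneSpectrum (𝓞 K)) {a d : K} (b : K)
    (h : a * d ≠ 0) (hb : 1 < v.valuation K b) : ¬ IsIntegralAt v (triAd v a b d) := by
  intro hint
  have := hint 0 1
  rw [finComp_triAd v b h, HeightOneSpectrum.mem_adicCompletionIntegers] at this
  simp only [Matrix.of_apply, Matrix.cons_val', Matrix.cons_val_zero, Matrix.cons_val_one,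
    Matrix.cons_val_fin_one, valued_algebraMap] at this
  exact absurd this (not_le.2 hb)

theorem not_isIntegralAt_triAd_of_right (v : HeightOneSpectrum (𝓞 K)) {a d : K} (b : K)
    (h : a * d ≠ 0) (hd : 1 < v.valuation K d) : ¬ IsIntegralAt v (triAd v a b d) := by
  intro hint
  have := hint 1 1
  rw [finComp_triAd v b h, HeightOneSpectrum.mem_adicCompletionIntegers] at this
  simp only [Matrix.of_apply, Matrix.cons_val', Matrix.cons_val_one, Matrix.cons_val_fin_one,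
    valued_algebraMap] at this
  exact absurd this (not_le.2 hd)

theorem valued_det_finComp_triAd (v : HeightOneSpectrum (𝓞 K)) {a d : K} (b : K)
    (h : a * d ≠ 0) :
    Valued.v (finComp v (triAd v a b d)).det = v.valuation K a * v.valuation K d := by
  rw [finComp_triAd v b h, Matrix.det_fin_two]
  simp [valued_algebraMap]


/-! ## The coset system -/

theorem triAd_inv_mul (v : HeightOneSpectrum (𝓞 K)) (a b d a' b' d' : K) :
    (triAd v a b d)⁻¹ * triAd v a' b' d' = locFinK v ((triGL a b d)⁻¹ * triGL a' b' d') := by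
  rw [triAd, triAd, map_mul, map_inv]

theorem exp_neg_one_lt_one : (WithZero.exp (-1 : ℤ) : WithZero (Multiplicative ℤ)) < 1 := by
  rw [← WithZero.exp_zero, WithZero.exp_lt_exp]; norm_num

theorem one_lt_inv_of_unif {x : WithZero (Multiplicative ℤ)} (hx : x = WithZero.exp (-1 : ℤ)) :
    1 < x⁻¹ := by
  rw [hx, ← WithZero.exp_neg, ← WithZero.exp_zero, WithZero.exp_lt_exp]; norm_num

theorem ne_zero_of_unif (v : HeightOneSpectrum (𝓞 K)) {ϖ : K}
    (hϖ : v.valuation K ϖ = WithZero.exp (-1 : ℤ)) : ϖ ≠ 0 := by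
  rintro rfl
  rw [map_zero] at hϖ
  exact WithZero.exp_ne_zero hϖ.symm

theorem triAd_injective_mid (v : HeightOneSpectrum (𝓞 K)) {a d : K} (h : a * d ≠ 0) :
    Function.Injective fun b : K => triAd v a b d := by
  intro b b' hbb
  have h1 := congrArg (fun g => finComp v g 0 1) hbb
  simp only [finComp_triAd v _ h] at h1
  simpa using h1

/-- **The explicit Hecke coset system** `{[[ϖ, r], [0, 1]]_v : r ∈ R} ∪ {[[1, 0], [0, ϖ]]_v}`. -/
def heckeSet (v : HeightOneSpectrum (𝓞 K)) (ϖ : K) (R : Finset K) : Finset (G K) :=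
  insert (triAd v 1 0 ϖ) (R.image fun r => triAd v ϖ r 1)

theorem mem_heckeSet (v : HeightOneSpectrum (𝓞 K)) (ϖ : K) (R : Finset K) (h : G K) :
    h ∈ heckeSet v ϖ R ↔ h = triAd v 1 0 ϖ ∨ ∃ r ∈ R, h = triAd v ϖ r 1 := by
  simp only [heckeSet, Finset.mem_insert, Finset.mem_image]
  constructor
  · rintro (h1 | ⟨r, hr, rfl⟩)
    · exact Or.inl h1
    · exact Or.inr ⟨r, hr, rfl⟩
  · rintro (h1 | ⟨r, hr, rfl⟩)
    · exact Or.inl h1
    · exact Or.inr ⟨r, hr, rfl⟩

theorem lo_ne_up (v : HeightOneSpectrum (𝓞 K)) {ϖ : K}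
    (hϖ : v.valuation K ϖ = WithZero.exp (-1 : ℤ)) (r : K) :
    triAd v 1 0 ϖ ≠ triAd v ϖ r 1 := by
  have h0 := ne_zero_of_unif v hϖ
  intro hbb
  have h1 := congrArg (fun g => finComp v g 0 0) hbb
  simp only [finComp_triAd v _ (show (1 : K) * ϖ ≠ 0 by simpa using h0),
    finComp_triAd v _ (show ϖ * (1 : K) ≠ 0 by simpa using h0)] at h1
  have h2 : (1 : K) = ϖ := by
    apply (algebraMap K (v.adicCompletion K)).injective
    simpa using h1
  rw [← h2, map_one] at hϖ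
  exact absurd hϖ (ne_of_gt exp_neg_one_lt_one)

theorem card_heckeSet (v : HeightOneSpectrum (𝓞 K)) {ϖ : K}
    (hϖ : v.valuation K ϖ = WithZero.exp (-1 : ℤ)) (R : Finset K) :
    (heckeSet v ϖ R).card = R.card + 1 := by
  have h0 := ne_zero_of_unif v hϖ
  rw [heckeSet, Finset.card_insert_of_notMem, Finset.card_image_of_injective]
  · exact triAd_injective_mid v (show ϖ * (1 : K) ≠ 0 by simpa using h0)
  · intro hmem
    obtain ⟨r, -, hr⟩ := Finset.mem_image.1 hmem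
    exact lo_ne_up v hϖ r hr.symm

/-- **MS3.**  The explicit set is a Hecke coset system in the sense of `A0`. -/
theorem isHeckeCosetSystem_heckeSet (v : HeightOneSpectrum (𝓞 K)) {ϖ : K}
    (hϖ : v.valuation K ϖ = WithZero.exp (-1 : ℤ)) {R : Finset K}
    (hint : ∀ r ∈ R, v.valuation K r ≤ 1)
    (hcard : R.card = Ideal.absNorm v.asIdeal)
    (hdist : ∀ r ∈ R, ∀ r' ∈ R, r ≠ r' → v.valuation K (r' - r) = 1) :
    IsHeckeCosetSystem v (heckeSet v ϖ R) := by
  have h0 := ne_zero_of_unif v hϖ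
  have hu : ϖ * (1 : K) ≠ 0 := by simpa using h0
  have hl : (1 : K) * ϖ ≠ 0 := by simpa using h0
  have hϖle : v.valuation K ϖ ≤ 1 := by rw [hϖ]; exact le_of_lt exp_neg_one_lt_one
  have hinv : 1 < v.valuation K ϖ⁻¹ := by rw [map_inv₀]; exact one_lt_inv_of_unif hϖ
  refine ⟨by rw [card_heckeSet v hϖ, hcard], ?_, ?_⟩
  · intro h hh
    rcases (mem_heckeSet v ϖ R h).1 hh with rfl | ⟨r, hr, rfl⟩
    · refine ⟨isLocalAtFin_triAd v _ _ _, isIntegralAt_triAd v hl ?_ ?_ hϖle, ?_⟩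
      · simp
      · simp
      · rw [valued_det_finComp_triAd v 0 hl, map_one, one_mul, hϖ]
    · refine ⟨isLocalAtFin_triAd v _ _ _, isIntegralAt_triAd v hu hϖle (hint r hr) ?_, ?_⟩
      · simp
      · rw [valued_det_finComp_triAd v r hu, map_one, mul_one, hϖ]
  · intro h hh h' hh' hne
    rcases (mem_heckeSet v ϖ R h).1 hh with rfl | ⟨r, hr, rfl⟩
    · rcases (mem_heckeSet v ϖ R h').1 hh' with rfl | ⟨r', hr', rfl⟩
      · exact absurd rfl hne
      · rw [triAd_inv_mul, lo_inv_mul_up h0]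
        have hne0 : ϖ * ϖ⁻¹ ≠ 0 := mul_ne_zero h0 (inv_ne_zero h0)
        exact not_isIntegralAt_triAd_of_right v r' hne0 hinv
    · rcases (mem_heckeSet v ϖ R h').1 hh' with rfl | ⟨r', hr', rfl⟩
      · rw [triAd_inv_mul, up_inv_mul_lo h0]
        have hne0 : ϖ⁻¹ * ϖ ≠ 0 := mul_ne_zero (inv_ne_zero h0) h0
        exact not_isIntegralAt_triAd_of_left v (-r) hne0 hinv
      · have hrr : r ≠ r' := by
          rintro rfl
          exact hne rfl
        rw [triAd_inv_mul, up_inv_mul_up h0]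
        refine not_isIntegralAt_triAd_of_mid v _ (by simp) ?_
        rw [map_div₀, hdist r hr r' hr' hrr, one_div, ← map_inv₀]
        exact hinv

/-- The scalar uniformizer `[[ϖ, 0], [0, ϖ]]_v`. -/
theorem isScalarUniformizerAt_triAd (v : HeightOneSpectrum (𝓞 K)) {ϖ : K}
    (hϖ : v.valuation K ϖ = WithZero.exp (-1 : ℤ)) :
    IsScalarUniformizerAt v (triAd v ϖ 0 ϖ) := by
  have h0 := ne_zero_of_unif v hϖ
  refine ⟨isLocalAtFin_triAd v _ _ _, algebraMap K (v.adicCompletion K) ϖ, ?_, ?_⟩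
  · rw [valued_algebraMap, hϖ]
  · rw [finComp_triAd v 0 (mul_ne_zero h0 h0)]
    ext i j
    fin_cases i <;> fin_cases j <;> simp


/-! ## The case `K = ℚ`: integer representatives -/

section Rat

variable (v : HeightOneSpectrum (𝓞 ℚ))

theorem finrank_int_ringOfIntegers_rat : Module.finrank ℤ (𝓞 ℚ) = 1 := by
  rw [RingOfIntegers.rank, Module.finrank_self]

theorem norm_intCast_rat (n : ℤ) : Algebra.norm ℤ ((n : ℤ) : 𝓞 ℚ) = n := by
  rw [← map_intCast (algebraMap ℤ (𝓞 ℚ)), Algebra.norm_algebraMap,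
    finrank_int_ringOfIntegers_rat, pow_one, Int.cast_id]

/-- An integer lies in the prime `v` of `𝓞 ℚ` iff it is divisible by `N(v)`. -/
theorem intCast_mem_asIdeal_iff (n : ℤ) :
    ((n : ℤ) : 𝓞 ℚ) ∈ v.asIdeal ↔ ((Ideal.absNorm v.asIdeal : ℕ) : ℤ) ∣ n := by
  constructor
  · intro h
    have h1 := Ideal.absNorm_dvd_norm_of_mem h
    rwa [norm_intCast_rat] at h1
  · rintro ⟨k, rfl⟩
    have h1 : (((Ideal.absNorm v.asIdeal : ℕ) : ℤ) : 𝓞 ℚ) ∈ v.asIdeal := by
      have := Ideal.absNorm_mem v.asIdeal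
      simpa using this
    rw [Int.cast_mul]
    exact Ideal.mul_mem_right _ _ h1

theorem exists_intCast_eq (x : 𝓞 ℚ) : ∃ n : ℤ, x = ((n : ℤ) : 𝓞 ℚ) :=
  ⟨Rat.ringOfIntegersEquiv x, by
    rw [← eq_intCast Rat.ringOfIntegersEquiv.symm, RingEquiv.symm_apply_apply]⟩

theorem absNorm_ne_zero_rat : Ideal.absNorm v.asIdeal ≠ 0 := by
  rw [Ne, Ideal.absNorm_eq_zero_iff]
  exact v.ne_bot

/-- The prime `v` of `𝓞 ℚ` is generated by its norm. -/
theorem asIdeal_eq_span_absNorm :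
    v.asIdeal = Ideal.span {((Ideal.absNorm v.asIdeal : ℕ) : 𝓞 ℚ)} := by
  apply le_antisymm
  · intro x hx
    obtain ⟨n, rfl⟩ := exists_intCast_eq x
    obtain ⟨k, hk⟩ := (intCast_mem_asIdeal_iff v n).1 hx
    rw [Ideal.mem_span_singleton]
    exact ⟨((k : ℤ) : 𝓞 ℚ), by rw [hk]; push_cast; ring⟩
  · rw [Ideal.span_singleton_le_iff_mem]
    exact Ideal.absNorm_mem v.asIdeal

theorem valuation_intCast_le_one (n : ℤ) : v.valuation ℚ ((n : ℤ) : ℚ) ≤ 1 := by
  have h : ((n : ℤ) : ℚ) = algebraMap (𝓞 ℚ) ℚ ((n : ℤ) : 𝓞 ℚ) := by simp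
  rw [h, HeightOneSpectrum.valuation_of_algebraMap]
  exact v.intValuation_le_one _

theorem valuation_intCast_eq_one_iff (n : ℤ) :
    v.valuation ℚ ((n : ℤ) : ℚ) = 1 ↔ ¬ ((Ideal.absNorm v.asIdeal : ℕ) : ℤ) ∣ n := by
  have h : ((n : ℤ) : ℚ) = algebraMap (𝓞 ℚ) ℚ ((n : ℤ) : 𝓞 ℚ) := by simp
  rw [h, HeightOneSpectrum.valuation_of_algebraMap, HeightOneSpectrum.intValuation_eq_one_iff,
    intCast_mem_asIdeal_iff]

/-- `N(v)` is a uniformizer at `v`. -/
theorem valuation_absNorm_rat :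
    v.valuation ℚ ((Ideal.absNorm v.asIdeal : ℕ) : ℚ) = WithZero.exp (-1 : ℤ) := by
  have h : ((Ideal.absNorm v.asIdeal : ℕ) : ℚ) =
      algebraMap (𝓞 ℚ) ℚ ((Ideal.absNorm v.asIdeal : ℕ) : 𝓞 ℚ) := by simp
  rw [h, HeightOneSpectrum.valuation_of_algebraMap]
  refine HeightOneSpectrum.intValuation_singleton v ?_ (asIdeal_eq_span_absNorm v)
  have h0 := absNorm_ne_zero_rat v
  intro h1
  apply h0
  have h2 : (((Ideal.absNorm v.asIdeal : ℕ) : 𝓞 ℚ) : ℚ) = 0 := by rw [h1]; simp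
  have h3 : ((Ideal.absNorm v.asIdeal : ℕ) : ℚ) = 0 := by simpa using h2
  exact_mod_cast h3

/-- The residue system `{M j : 0 ≤ j < N(v)}` for an integer `M` prime to `N(v)`. -/
def resSet (M : ℤ) : Finset ℚ :=
  (Finset.range (Ideal.absNorm v.asIdeal)).image fun j : ℕ => ((M * (j : ℤ) : ℤ) : ℚ)

theorem mem_resSet (M : ℤ) (r : ℚ) :
    r ∈ resSet v M ↔ ∃ j : ℕ, j < Ideal.absNorm v.asIdeal ∧ r = ((M * (j : ℤ) : ℤ) : ℚ) := by
  simp only [resSet, Finset.mem_image, Finset.mem_range]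
  constructor
  · rintro ⟨j, hj, rfl⟩; exact ⟨j, hj, rfl⟩
  · rintro ⟨j, hj, rfl⟩; exact ⟨j, hj, rfl⟩

theorem card_resSet {M : ℤ} (hM : M ≠ 0) : (resSet v M).card = Ideal.absNorm v.asIdeal := by
  rw [resSet, Finset.card_image_of_injective, Finset.card_range]
  intro j j' h
  have h0 : ((M * (j : ℤ) : ℤ) : ℚ) = ((M * (j' : ℤ) : ℤ) : ℚ) := h
  have h1 : M * (j : ℤ) = M * (j' : ℤ) := by exact_mod_cast h0
  exact_mod_cast mul_left_cancel₀ hM h1

/-- **MS3 over `ℚ`.**  For an integer `M` prime to `N(v)` the set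
`{[[q, M j], [0, 1]]_v : 0 ≤ j < q} ∪ {[[1, 0], [0, q]]_v}`, `q = N(v)`, is a Hecke coset system. -/
theorem isHeckeCosetSystem_rat {M : ℤ}
    (hM : IsCoprime M ((Ideal.absNorm v.asIdeal : ℕ) : ℤ)) :
    IsHeckeCosetSystem v
      (heckeSet v ((Ideal.absNorm v.asIdeal : ℕ) : ℚ) (resSet v M)) := by
  have hq0 := absNorm_ne_zero_rat v
  have hq1 : Ideal.absNorm v.asIdeal ≠ 1 := by
    rw [Ne, Ideal.absNorm_eq_one_iff]
    exact v.isPrime.ne_top
  have hM0 : M ≠ 0 := by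
    rintro rfl
    have := hM.isUnit_of_dvd' (dvd_zero _) dvd_rfl
    rw [Int.isUnit_iff] at this
    rcases this with h | h
    · exact hq1 (by exact_mod_cast h)
    · have : (0 : ℤ) ≤ ((Ideal.absNorm v.asIdeal : ℕ) : ℤ) := Int.natCast_nonneg _
      omega
  refine isHeckeCosetSystem_heckeSet v (valuation_absNorm_rat v) ?_ (card_resSet v hM0) ?_
  · intro r hr
    obtain ⟨j, -, rfl⟩ := (mem_resSet v M r).1 hr
    exact valuation_intCast_le_one v _
  · intro r hr r' hr' hne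
    obtain ⟨j, hj, rfl⟩ := (mem_resSet v M r).1 hr
    obtain ⟨j', hj', rfl⟩ := (mem_resSet v M r').1 hr'
    have hjj : j ≠ j' := by
      rintro rfl
      exact hne rfl
    have e : (((M * (j' : ℤ) : ℤ) : ℚ) - ((M * (j : ℤ) : ℤ) : ℚ)) =
        ((M * ((j' : ℤ) - (j : ℤ)) : ℤ) : ℚ) := by push_cast; ring
    rw [e, valuation_intCast_eq_one_iff]
    intro hdvd
    have h1 : ((Ideal.absNorm v.asIdeal : ℕ) : ℤ) ∣ (j' : ℤ) - (j : ℤ) :=
      hM.symm.dvd_of_dvd_mul_left hdvd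
    have h2 : ((j' : ℤ) - (j : ℤ)) = 0 := by
      apply Int.eq_zero_of_abs_lt_dvd h1
      rw [abs_lt]
      constructor <;> omega
    omega

end Rat

end Fermat.Agent.LT.T8.H864

end
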